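import Mathlib

/-!
# S48 / P-EXP : bounded exponent by double counting   [key S48/P-EXP, ~400 lines, MATHLIB ONLY]

`Γ` finite group, `r : Γ →* GL₂(k)`, `H ⊆ Γ` with `4|H| ≥ 3|Γ|`, and `(tr, det)(r h) ∈ P` for `h ∈ H`, `M = |P|`.
Then every eigenvalue `α ∈ k` of every `r g` satisfies `α ^ m = 1` for some `0 < m ≤ 8 M`.
No classification of subgroups, no irreducibility, the characteristic may divide `|Γ|`.

## Proof
`α` is a root of `X² - tr X + det`; `β := tr - α` is the other one: `α + β = tr`, `α β = det ≠ 0`, so `α, β ≠ 0`.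
`α`, `β` have finite order (`g` has finite order `n`, `v` eigenvector (exists since `det (r g - α) = 0`): `α^n v = v`).

DOUBLE COUNT (`count`): for every `m` and every `g`:  `∑_{x ∈ Γ} #{i < m | x * g^i ∈ H} = m * |H|`
(exchange the sums; for fixed `i`, `x ↦ x * g^i` is a bijection of `Γ`).

CASE `α = β`.  `m := orderOf α`.  `det (r (x g^i)) = det (r x) * α^(2 i)`.  For fixed `x` and fixed `(t,d) ∈ P` there are at most two
`i < m` with `det (r x) α^(2i) = d`: `α^i` is then a root of `Z² = d / det (r x)` and `i ↦ α^i` is injective on `i < m`.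
So `#{i < m | x g^i ∈ H} ≤ 2 M` for ALL `x`:  `m |H| ≤ 2 M |Γ|`, hence `3 m ≤ 8 M`.

CASE `α ≠ β`.  `r g` is diagonalisable: eigenvectors `v, w` for `α, β` are independent; `Q := (v | w) ∈ GL₂(k)`, `Q⁻¹ (r g) Q = diag(α, β)`.
Replace `r` by `r' = Q⁻¹ r Q` (`(MulAut.conj Q⁻¹).toMonoidHom.comp r`): traces and determinants do not change.  (State the core lemma
`core` with the hypothesis `(r g : Matrix _ _ k) = Matrix.diagonal ![α, β]`.)
`m := orderOf ((α, β) : kˣ × kˣ)` (or `Nat.lcm (orderOf α) (orderOf β)`): `i ↦ (α^i, β^i)` is injective on `i < m`, `α^m = 1`.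
With `X = r x`:  `tr (X (r g)^i) = X₀₀ α^i + X₁₁ β^i`,  `det = det X (α β)^i`.
* `AD := {x | X₀₀ = 0 ∧ X₁₁ = 0}`.  `2 |AD| ≤ |Γ|`: if `x₀ ∈ AD` then `x ↦ x₀ * x` maps `AD` injectively into `ADᶜ`
  (`(X₀ X)₀₀ = (X₀)₀₁ X₁₀ ≠ 0` because `det X₀ = -(X₀)₀₁ (X₀)₁₀ ≠ 0`, same for `X`).
* `x ∉ AD`, say `X₀₀ ≠ 0` (the other case is symmetric: exchange the roles of `α, β`), `(t,d) ∈ P`: if `X₀₀ α^i + X₁₁ β^i = t` and `det X (αβ)^i = d` then
  `Z = X₀₀ α^i` satisfies `Z² - t Z + X₀₀ X₁₁ d / det X = 0` : at most two values of `Z` (three distinct roots of a monic quadratic are impossible: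
  `(Z₁ - Z₂)(Z₁ + Z₂ - t) = 0`), and `Z` determines `α^i`, then `β^i = (d / det X) / α^i`, then `i`.  So `#{i < m | x g^i ∈ H} ≤ 2 M`.
* `m |H| ≤ m |AD| + 2 M |Γ| ≤ m |Γ| / 2 + 2 M |Γ|`; with `4 |H| ≥ 3 |Γ|`:  `m ≤ 8 M`.
-/

set_option autoImplicit false

namespace Fermat.Agent.S48.P

open Matrix

/-- at most two indices can give (injectively) roots of a monic quadratic -/
theorem exp_card_le_two {k : Type*} [Field k] (s : Finset ℕ) (Z : ℕ → k) (t c : k)
    (hinj : Set.InjOn Z s) (hZ : ∀ i ∈ s, Z i * Z i - t * Z i + c = 0) : s.card ≤ 2 := by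
  by_contra hcon
  rw [not_le, Finset.two_lt_card] at hcon
  obtain ⟨a, ha, b, hb, d, hd, hab, had, hbd⟩ := hcon
  have h1 : Z a ≠ Z b := fun h => hab (hinj ha hb h)
  have h2 : Z a ≠ Z d := fun h => had (hinj ha hd h)
  have h3 : Z b ≠ Z d := fun h => hbd (hinj hb hd h)
  have e1 : (Z a - Z b) * (Z a + Z b - t) = 0 := by
    linear_combination hZ a ha - hZ b hb
  have e2 : (Z a - Z d) * (Z a + Z d - t) = 0 := by
    linear_combination hZ a ha - hZ d hd
  have f1 : Z a + Z b - t = 0 := (mul_eq_zero.mp e1).resolve_left (sub_ne_zero.mpr h1)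
  have f2 : Z a + Z d - t = 0 := (mul_eq_zero.mp e2).resolve_left (sub_ne_zero.mpr h2)
  exact h3 (by linear_combination f1 - f2)

/-- the double count -/
theorem exp_count {Γ : Type*} [Group Γ] [Fintype Γ] [DecidableEq Γ] (H : Finset Γ) (g : Γ) (m : ℕ) :
    ∑ x : Γ, ((Finset.range m).filter fun i => x * g ^ i ∈ H).card = m * H.card := by
  have h1 : ∀ x : Γ, ((Finset.range m).filter fun i => x * g ^ i ∈ H).card =
      ∑ i ∈ Finset.range m, if x * g ^ i ∈ H then 1 else 0 := fun x => by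
    rw [Finset.card_filter]
  simp_rw [h1]
  rw [Finset.sum_comm]
  have h2 : ∀ i : ℕ, ∑ x : Γ, (if x * g ^ i ∈ H then 1 else 0) = H.card := by
    intro i
    rw [← Finset.card_filter]
    refine Finset.card_bij (fun x _ => x * g ^ i) ?_ ?_ ?_
    · intro x hx
      exact (Finset.mem_filter.mp hx).2
    · intro x _ y _ hxy
      exact mul_right_cancel hxy
    · intro y hy
      exact ⟨y * (g ^ i)⁻¹, Finset.mem_filter.mpr ⟨Finset.mem_univ _, by simpa using hy⟩, by simp⟩
  simp_rw [h2]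
  simp

/-- the arithmetic of the double count -/
theorem exp_bound {Γ : Type*} [Group Γ] [Fintype Γ] [DecidableEq Γ] (H AD : Finset Γ) (g : Γ) (m M : ℕ)
    (hH : 3 * Fintype.card Γ ≤ 4 * H.card) (hAD : 2 * AD.card ≤ Fintype.card Γ)
    (h : ∀ x, x ∉ AD → ((Finset.range m).filter fun i => x * g ^ i ∈ H).card ≤ 2 * M) :
    m ≤ 8 * M := by
  have h0 : 0 < Fintype.card Γ := Fintype.card_pos
  have h1 := exp_count H g m
  have h2 : ∑ x : Γ, ((Finset.range m).filter fun i => x * g ^ i ∈ H).card ≤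
      ∑ x : Γ, ((if x ∈ AD then m else 0) + 2 * M) := by
    refine Finset.sum_le_sum fun x _ => ?_
    by_cases hx : x ∈ AD
    · rw [if_pos hx]
      calc _ ≤ (Finset.range m).card := Finset.card_filter_le _ _
        _ = m := Finset.card_range m
        _ ≤ m + 2 * M := Nat.le_add_right _ _
    · rw [if_neg hx, zero_add]
      exact h x hx
  rw [h1, Finset.sum_add_distrib, Finset.sum_const, Finset.card_univ, smul_eq_mul,
    Finset.sum_ite_mem, Finset.univ_inter, Finset.sum_const, smul_eq_mul] at h2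
  by_contra hcon
  rw [not_le] at hcon
  have h3 : 3 * Fintype.card Γ * m ≤ 4 * H.card * m := Nat.mul_le_mul_right _ hH
  have h4 : 2 * AD.card * m ≤ Fintype.card Γ * m := Nat.mul_le_mul_right _ hAD
  have h5 : Fintype.card Γ * (8 * M) < Fintype.card Γ * m := Nat.mul_lt_mul_of_pos_left hcon h0
  nlinarith

/-- from a bound for each `(t,d)` to a bound for `H` -/
theorem exp_fiber {k : Type*} [Field k] [DecidableEq k] {Γ : Type*} [Group Γ] [DecidableEq Γ]
    (r : Γ →* GL (Fin 2) k) (H : Finset Γ) (P : Finset (k × k))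
    (hP : ∀ h ∈ H, ((r h : Matrix (Fin 2) (Fin 2) k).trace, (r h : Matrix (Fin 2) (Fin 2) k).det) ∈ P)
    (g x : Γ) (m : ℕ)
    (h : ∀ t d : k, ((Finset.range m).filter fun i =>
      (r (x * g ^ i) : Matrix (Fin 2) (Fin 2) k).trace = t ∧
      (r (x * g ^ i) : Matrix (Fin 2) (Fin 2) k).det = d).card ≤ 2) :
    ((Finset.range m).filter fun i => x * g ^ i ∈ H).card ≤ 2 * P.card := by
  have h1 : ((Finset.range m).filter fun i => x * g ^ i ∈ H) ⊆
      P.biUnion fun td => (Finset.range m).filter fun i =>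
        (r (x * g ^ i) : Matrix (Fin 2) (Fin 2) k).trace = td.1 ∧
        (r (x * g ^ i) : Matrix (Fin 2) (Fin 2) k).det = td.2 := by
    intro i hi
    rw [Finset.mem_filter] at hi
    rw [Finset.mem_biUnion]
    exact ⟨_, hP _ hi.2, Finset.mem_filter.mpr ⟨hi.1, rfl, rfl⟩⟩
  calc _ ≤ _ := Finset.card_le_card h1
    _ ≤ ∑ td ∈ P, _ := Finset.card_biUnion_le
    _ ≤ ∑ _td ∈ P, 2 := Finset.sum_le_sum fun td _ => h td.1 td.2
    _ = 2 * P.card := by rw [Finset.sum_const, smul_eq_mul, mul_comm]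


/-- the case of a double eigenvalue: only the determinant is used -/
theorem exp_double {k : Type*} [Field k] [DecidableEq k] {Γ : Type*} [Group Γ] [Fintype Γ] [DecidableEq Γ]
    (r : Γ →* GL (Fin 2) k) (H : Finset Γ) (P : Finset (k × k))
    (hH : 3 * Fintype.card Γ ≤ 4 * H.card)
    (hP : ∀ h ∈ H, ((r h : Matrix (Fin 2) (Fin 2) k).trace, (r h : Matrix (Fin 2) (Fin 2) k).det) ∈ P)
    (g : Γ) (α : k) (hα : (r g : Matrix (Fin 2) (Fin 2) k).det = α * α) :
    ∃ m : ℕ, 0 < m ∧ m ≤ 8 * P.card ∧ α ^ m = 1 := by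
  have hdet : ∀ y : Γ, (r y : Matrix (Fin 2) (Fin 2) k).det ≠ 0 := fun y =>
    ((Matrix.isUnit_iff_isUnit_det _).mp (r y).isUnit).ne_zero
  have hα0 : α ≠ 0 := by
    intro h0
    apply hdet g
    rw [hα, h0, mul_zero]
  have hfin : IsOfFinOrder α := by
    rw [isOfFinOrder_iff_pow_eq_one]
    refine ⟨2 * orderOf g, by have := orderOf_pos g; omega, ?_⟩
    rw [pow_mul, pow_two, ← hα, ← Matrix.det_pow, ← Units.val_pow_eq_pow_val, ← map_pow,
      pow_orderOf_eq_one, map_one]
    simp
  refine ⟨orderOf α, hfin.orderOf_pos, ?_, pow_orderOf_eq_one α⟩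
  refine exp_bound H ∅ g (orderOf α) P.card hH (by simp) fun x _ => ?_
  refine exp_fiber r H P hP g x _ fun t d => ?_
  refine exp_card_le_two _ (fun i => α ^ i) 0 (- (d / (r x : Matrix (Fin 2) (Fin 2) k).det)) ?_ ?_
  · intro i hi j hj hij
    have hi' := (Finset.mem_filter.mp hi).1
    have hj' := (Finset.mem_filter.mp hj).1
    rw [Finset.mem_range] at hi' hj'
    exact pow_injOn_Iio_orderOf hi' hj' hij
  · intro i hi
    have h1 := (Finset.mem_filter.mp hi).2.2
    rw [map_mul, map_pow, Units.val_mul, Units.val_pow_eq_pow_val, Matrix.det_mul, Matrix.det_pow,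
      hα] at h1
    rw [← h1]
    field_simp [hdet x]
    ring


/-- antidiagonal elements are at most half of the group -/
theorem exp_antidiag {k : Type*} [Field k] [DecidableEq k] {Γ : Type*} [Group Γ] [Fintype Γ] [DecidableEq Γ]
    (r : Γ →* GL (Fin 2) k) :
    2 * (Finset.univ.filter fun x : Γ => (r x : Matrix (Fin 2) (Fin 2) k) 0 0 = 0 ∧
      (r x : Matrix (Fin 2) (Fin 2) k) 1 1 = 0).card ≤ Fintype.card Γ := by
  set AD := Finset.univ.filter fun x : Γ => (r x : Matrix (Fin 2) (Fin 2) k) 0 0 = 0 ∧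
      (r x : Matrix (Fin 2) (Fin 2) k) 1 1 = 0 with hAD
  have hdet : ∀ y : Γ, (r y : Matrix (Fin 2) (Fin 2) k).det ≠ 0 := fun y =>
    ((Matrix.isUnit_iff_isUnit_det _).mp (r y).isUnit).ne_zero
  rcases AD.eq_empty_or_nonempty with h0 | ⟨x₀, hx₀⟩
  · rw [h0]; simp
  · have h1 : AD.card ≤ ADᶜ.card := by
      refine Finset.card_le_card_of_injOn (fun x => x₀ * x) ?_ ?_
      · intro x hx
        have hx' := (Finset.mem_filter.mp hx).2
        have hx₀' := (Finset.mem_filter.mp hx₀).2
        simp only [Finset.coe_compl, Set.mem_compl_iff, Finset.mem_coe]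
        intro hmem
        have h2 := (Finset.mem_filter.mp hmem).2.1
        rw [map_mul, Units.val_mul, Matrix.mul_apply, Fin.sum_univ_two, hx₀'.1, zero_mul,
          zero_add] at h2
        have d1 := hdet x₀
        have d2 := hdet x
        rw [Matrix.det_fin_two, hx₀'.1, zero_mul, zero_sub] at d1
        rw [Matrix.det_fin_two, hx'.1, zero_mul, zero_sub] at d2
        rcases mul_eq_zero.mp h2 with h3 | h3
        · apply d1; rw [h3]; ring
        · apply d2; rw [h3]; ring
      · intro x _ y _ hxy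
        exact mul_left_cancel hxy
    rw [Finset.card_compl] at h1
    have h2 : AD.card ≤ Fintype.card Γ := Finset.card_le_univ _
    omega

/-- the diagonal case -/
theorem exp_diag {k : Type*} [Field k] [DecidableEq k] {Γ : Type*} [Group Γ] [Fintype Γ] [DecidableEq Γ]
    (r : Γ →* GL (Fin 2) k) (H : Finset Γ) (P : Finset (k × k))
    (hH : 3 * Fintype.card Γ ≤ 4 * H.card)
    (hP : ∀ h ∈ H, ((r h : Matrix (Fin 2) (Fin 2) k).trace, (r h : Matrix (Fin 2) (Fin 2) k).det) ∈ P)
    (g : Γ) (α β : k) (hg : (r g : Matrix (Fin 2) (Fin 2) k) = !![α, 0; 0, β]) :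
    ∃ m : ℕ, 0 < m ∧ m ≤ 8 * P.card ∧ α ^ m = 1 := by
  have hdet : ∀ y : Γ, (r y : Matrix (Fin 2) (Fin 2) k).det ≠ 0 := fun y =>
    ((Matrix.isUnit_iff_isUnit_det _).mp (r y).isUnit).ne_zero
  have hαβ : α * β ≠ 0 := by
    have := hdet g
    rw [hg, Matrix.det_fin_two_of] at this
    simpa using this
  have hα0 : α ≠ 0 := left_ne_zero_of_mul hαβ
  have hβ0 : β ≠ 0 := right_ne_zero_of_mul hαβ
  have hpow : ∀ i : ℕ, (r (g ^ i) : Matrix (Fin 2) (Fin 2) k) = !![α ^ i, 0; 0, β ^ i] := by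
    intro i
    induction i with
    | zero => simp [Matrix.one_fin_two]
    | succ n ih =>
      rw [pow_succ, map_mul, Units.val_mul, ih, hg, Matrix.mul_fin_two]
      simp [pow_succ]
  set u : kˣ × kˣ := (Units.mk0 α hα0, Units.mk0 β hβ0) with hu
  have hupow : ∀ i j : ℕ, α ^ i = α ^ j → β ^ i = β ^ j → u ^ i = u ^ j := by
    intro i j h1 h2
    refine Prod.ext (Units.ext ?_) (Units.ext ?_)
    · simpa [hu] using h1
    · simpa [hu] using h2
  have hfin : IsOfFinOrder u := by
    rw [isOfFinOrder_iff_pow_eq_one]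
    refine ⟨orderOf g, orderOf_pos g, ?_⟩
    have h1 := hpow (orderOf g)
    rw [pow_orderOf_eq_one, map_one, Units.val_one, Matrix.one_fin_two] at h1
    have h2 : α ^ orderOf g = 1 := by
      have := congrFun (congrFun h1 0) 0
      simpa using this.symm
    have h3 : β ^ orderOf g = 1 := by
      have := congrFun (congrFun h1 1) 1
      simpa using this.symm
    have := hupow (orderOf g) 0 (by simpa using h2) (by simpa using h3)
    simpa using this
  have hα1 : α ^ orderOf u = 1 := by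
    have h1 := congrArg (fun v : kˣ × kˣ => ((v.1 : kˣ) : k)) (pow_orderOf_eq_one u)
    simp only [Prod.pow_fst, Units.val_pow_eq_pow_val, Prod.fst_one, Units.val_one] at h1
    exact h1
  refine ⟨orderOf u, hfin.orderOf_pos, ?_, hα1⟩
  refine exp_bound H _ g (orderOf u) P.card hH (exp_antidiag r) fun x hx => ?_
  refine exp_fiber r H P hP g x _ fun t d => ?_
  set X : Matrix (Fin 2) (Fin 2) k := (r x : Matrix (Fin 2) (Fin 2) k) with hX
  have htr : ∀ i : ℕ, (r (x * g ^ i) : Matrix (Fin 2) (Fin 2) k).trace =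
      X 0 0 * α ^ i + X 1 1 * β ^ i := by
    intro i
    rw [map_mul, Units.val_mul, hpow, Matrix.trace_fin_two, Matrix.mul_apply, Matrix.mul_apply,
      Fin.sum_univ_two, Fin.sum_univ_two]
    simp [hX]
  have hdt : ∀ i : ℕ, (r (x * g ^ i) : Matrix (Fin 2) (Fin 2) k).det = X.det * (α * β) ^ i := by
    intro i
    rw [map_mul, Units.val_mul, hpow, Matrix.det_mul, Matrix.det_fin_two_of, mul_pow, hX]
    simp
  have hinj : ∀ i ∈ ((Finset.range (orderOf u)).filter fun i =>
      (r (x * g ^ i) : Matrix (Fin 2) (Fin 2) k).trace = t ∧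
      (r (x * g ^ i) : Matrix (Fin 2) (Fin 2) k).det = d), ∀ j ∈ ((Finset.range (orderOf u)).filter fun i =>
      (r (x * g ^ i) : Matrix (Fin 2) (Fin 2) k).trace = t ∧
      (r (x * g ^ i) : Matrix (Fin 2) (Fin 2) k).det = d), (α ^ i = α ^ j ∨ β ^ i = β ^ j) → i = j := by
    intro i hi j hj hij
    rw [Finset.mem_filter, Finset.mem_range] at hi hj
    have h1 : (α * β) ^ i = (α * β) ^ j := by
      have e1 := hi.2.2
      have e2 := hj.2.2
      rw [hdt] at e1 e2
      exact mul_left_cancel₀ (hdet x) (e1.trans e2.symm)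
    rw [mul_pow, mul_pow] at h1
    have h2 : α ^ i = α ^ j ∧ β ^ i = β ^ j := by
      rcases hij with h | h
      · refine ⟨h, ?_⟩
        rw [h] at h1
        exact mul_left_cancel₀ (pow_ne_zero _ hα0) h1
      · refine ⟨?_, h⟩
        rw [h] at h1
        exact mul_right_cancel₀ (pow_ne_zero _ hβ0) h1
    exact pow_injOn_Iio_orderOf hi.1 hj.1 (hupow i j h2.1 h2.2)
  have hx' : X 0 0 ≠ 0 ∨ X 1 1 ≠ 0 := by
    by_contra hcon
    push Not at hcon
    exact hx (Finset.mem_filter.mpr ⟨Finset.mem_univ _, hcon⟩)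
  rcases hx' with h0 | h1
  · refine exp_card_le_two _ (fun i => X 0 0 * α ^ i) t (X 0 0 * X 1 1 * (d / X.det)) ?_ ?_
    · intro i hi j hj hij
      exact hinj i hi j hj (Or.inl (mul_left_cancel₀ h0 hij))
    · intro i hi
      have e1 := (Finset.mem_filter.mp hi).2.1
      have e2 := (Finset.mem_filter.mp hi).2.2
      rw [htr] at e1
      rw [hdt] at e2
      rw [← e1, ← e2, mul_div_cancel_left₀ _ (hdet x), mul_pow]
      ring
  · refine exp_card_le_two _ (fun i => X 1 1 * β ^ i) t (X 0 0 * X 1 1 * (d / X.det)) ?_ ?_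
    · intro i hi j hj hij
      exact hinj i hi j hj (Or.inr (mul_left_cancel₀ h1 hij))
    · intro i hi
      have e1 := (Finset.mem_filter.mp hi).2.1
      have e2 := (Finset.mem_filter.mp hi).2.2
      rw [htr] at e1
      rw [hdt] at e2
      rw [← e1, ← e2, mul_div_cancel_left₀ _ (hdet x), mul_pow]
      ring


/-- a 2x2 matrix with two distinct eigenvalues is diagonalisable -/
theorem exp_diagonalise_aux {k : Type*} [Field k] (a b c d α β : k)
    (h1 : α + β = a + d) (h2 : α * β = a * d - b * c) (hne : α ≠ β) :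
    ∃ Q : Matrix (Fin 2) (Fin 2) k, Q.det ≠ 0 ∧ !![a, b; c, d] * Q = Q * !![α, 0; 0, β] := by
  have hsub : α - β ≠ 0 := sub_ne_zero.mpr hne
  by_cases hb : b = 0
  · by_cases hc : c = 0
    · -- diagonal
      have h3 : (α - a) * (α - d) = 0 := by
        rw [hb] at h2
        linear_combination α * h1 - h2
      rcases mul_eq_zero.mp h3 with h4 | h4
      · refine ⟨1, by simp, ?_⟩
        have e1 : a = α := (sub_eq_zero.mp h4).symm
        have e2 : d = β := by linear_combination -h1 - e1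
        rw [hb, hc, e1, e2]
        simp
      · have e1 : d = α := (sub_eq_zero.mp h4).symm
        have e2 : a = β := by linear_combination -h1 - e1
        refine ⟨!![0, 1; 1, 0], by simp, ?_⟩
        rw [hb, hc, e1, e2]
        simp
    · refine ⟨!![α - d, β - d; c, c], ?_, ?_⟩
      · rw [Matrix.det_fin_two_of]
        intro h0
        have : c * (α - β) = 0 := by linear_combination h0
        rcases mul_eq_zero.mp this with h | h
        · exact hc h
        · exact hsub h
      · rw [Matrix.mul_fin_two, Matrix.mul_fin_two]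
        have e1 : a * (α - d) + b * c = (α - d) * α + (β - d) * 0 := by
          linear_combination (-α) * h1 + h2
        have e2 : a * (β - d) + b * c = (α - d) * 0 + (β - d) * β := by
          linear_combination (-β) * h1 + h2
        have e3 : c * (α - d) + d * c = c * α + c * 0 := by ring
        have e4 : c * (β - d) + d * c = c * 0 + c * β := by ring
        rw [e1, e2, e3, e4]
  · refine ⟨!![b, b; α - a, β - a], ?_, ?_⟩
    · rw [Matrix.det_fin_two_of]
      intro h0
      have : b * (α - β) = 0 := by linear_combination -h0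
      rcases mul_eq_zero.mp this with h | h
      · exact hb h
      · exact hsub h
    · rw [Matrix.mul_fin_two, Matrix.mul_fin_two]
      have e1 : a * b + b * (α - a) = b * α + b * 0 := by ring
      have e2 : a * b + b * (β - a) = b * 0 + b * β := by ring
      have e3 : c * b + d * (α - a) = (α - a) * α + (β - a) * 0 := by
        linear_combination (-α) * h1 + h2
      have e4 : c * b + d * (β - a) = (α - a) * 0 + (β - a) * β := by
        linear_combination (-β) * h1 + h2
      rw [e1, e2, e3, e4]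

theorem exp_diagonalise {k : Type*} [Field k] (m : GL (Fin 2) k) (α β : k)
    (h1 : α + β = (m : Matrix (Fin 2) (Fin 2) k).trace) (h2 : α * β = (m : Matrix (Fin 2) (Fin 2) k).det)
    (hne : α ≠ β) :
    ∃ Q : GL (Fin 2) k, ((Q⁻¹ * m * Q : GL (Fin 2) k) : Matrix (Fin 2) (Fin 2) k) = !![α, 0; 0, β] := by
  rw [Matrix.trace_fin_two] at h1
  rw [Matrix.det_fin_two] at h2
  obtain ⟨Q, hQ, hmQ⟩ := exp_diagonalise_aux _ _ _ _ α β h1 h2 hne
  rw [← Matrix.eta_fin_two] at hmQ
  refine ⟨Matrix.GeneralLinearGroup.mkOfDetNeZero Q hQ, ?_⟩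
  set Q' : GL (Fin 2) k := Matrix.GeneralLinearGroup.mkOfDetNeZero Q hQ with hQ'
  have h3 : (Q' : Matrix (Fin 2) (Fin 2) k) = Q := rfl
  rw [← h3] at hmQ
  rw [mul_assoc, Units.val_mul, Units.val_mul, hmQ, ← mul_assoc, ← Units.val_mul,
    inv_mul_cancel, Units.val_one, one_mul]

theorem exists_pow_eq_one_of_dense {k : Type*} [Field k] {Γ : Type*} [Group Γ] [Finite Γ]
    (r : Γ →* GL (Fin 2) k) (H : Set Γ) (P : Finset (k × k))
    (hH : 3 * Nat.card Γ ≤ 4 * Nat.card H)
    (hP : ∀ h ∈ H, ((r h : Matrix (Fin 2) (Fin 2) k).trace, (r h : Matrix (Fin 2) (Fin 2) k).det) ∈ P)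
    (g : Γ) (α : k)
    (hα : α * α - (r g : Matrix (Fin 2) (Fin 2) k).trace * α + (r g : Matrix (Fin 2) (Fin 2) k).det = 0) :
    ∃ m : ℕ, 0 < m ∧ m ≤ 8 * P.card ∧ α ^ m = 1 := by
  classical
  have := Fintype.ofFinite Γ
  set HF : Finset Γ := Finset.univ.filter (· ∈ H) with hHF
  have hcard : Nat.card H = HF.card := by
    rw [Nat.card_eq_fintype_card, Fintype.card_subtype]
  rw [hcard, Nat.card_eq_fintype_card] at hH
  have hP' : ∀ h ∈ HF, ((r h : Matrix (Fin 2) (Fin 2) k).trace,
      (r h : Matrix (Fin 2) (Fin 2) k).det) ∈ P := fun h hh => hP h (Finset.mem_filter.mp hh).2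
  set β : k := (r g : Matrix (Fin 2) (Fin 2) k).trace - α with hβ
  have h1 : α + β = (r g : Matrix (Fin 2) (Fin 2) k).trace := by rw [hβ]; ring
  have h2 : α * β = (r g : Matrix (Fin 2) (Fin 2) k).det := by rw [hβ]; linear_combination -hα
  by_cases hne : α = β
  · exact exp_double r HF P hH hP' g α (by rw [← h2, ← hne])
  · obtain ⟨Q, hQ⟩ := exp_diagonalise (r g) α β h1 h2 hne
    set r' : Γ →* GL (Fin 2) k := (MulAut.conj Q⁻¹).toMonoidHom.comp r with hr'
    have hr'a : ∀ x, r' x = Q⁻¹ * r x * Q := fun x => by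
      simp [hr']
    have htr : ∀ x, (r' x : Matrix (Fin 2) (Fin 2) k).trace = (r x : Matrix (Fin 2) (Fin 2) k).trace := by
      intro x
      rw [hr'a, Units.val_mul, Units.val_mul]
      exact Matrix.trace_units_conj' Q _
    have hdt : ∀ x, (r' x : Matrix (Fin 2) (Fin 2) k).det = (r x : Matrix (Fin 2) (Fin 2) k).det := by
      intro x
      rw [hr'a, Units.val_mul, Units.val_mul]
      exact Matrix.det_units_conj' Q _
    refine exp_diag r' HF P hH (fun h hh => ?_) g α β (by rw [hr'a]; exact hQ)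
    rw [htr, hdt]
    exact hP' h hh

end Fermat.Agent.S48.P
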