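import Fermat.Agent.S48.P.Gma
import Fermat.Agent.S48.Defs

/-!
# S48 / P-LIFTID : a mod `ℓ` representation whose traces lift to a finite set `T ⊆ Zbar` lifts to `GL₂(ℂ)`
[key S48/P-LIFTID, ~450 lines, MATHLIB ONLY + `Gma.exists_rep`]

`r : Γ →* GL₂(k)`, `r c = diag(1,-1)`, `t δ : Γ → Zbar` with values in `T`, `φ (t g) = tr (r g)`, `φ (δ g) = det (r g)`; `φ` is injective "at 0" on
`liftSet T` (a finite set if `T` is finite).

Write `r g = [[ā, b̄],[c̄, d̄]]`.  In `Zbar` put `A g = t g + t (c g)`, `D g = t g - t (c g)`, `X g h = 2 A (g h) - A g * A h`.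
Then `φ (A g) = 2 ā g`, `φ (D g) = 2 d̄ g`, `φ (X g h) = 4 (ā (g h) - ā g ā h) = 4 b̄ g c̄ h`   (`tr (diag(1,-1) m) = m₀₀ - m₁₁`).
IDENTITIES in `Zbar` (each: the difference of the two sides lies in `liftSet T` and is killed by `φ`: a computation with 2x2 matrices over `k`,
`Matrix.mul_apply, Fin.sum_univ_two`, `ring`):
 (1) `t 1 = 2`, (2) `t c = 0`, (3) `r g = r g' → t g = t g'`,
 (4) `2 D (g h) = D g D h + X h g`, (5) `X g h X g' h' = X g h' X g' h`, (6) `2 X (g h) k = A g X h k + X g k D h`,
 (7) `2 X k (g h) = X k g A h + D g X k h`, (8) `A g D g - X g g = 4 δ g`.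
Then `a g = (A g : ℂ)/2`, `d g = (D g : ℂ)/2`, `x g h = (X g h : ℂ)/4` is a `Gma` (`a_mul` is the definition of `X`; `a 1 = (t 1 + t c)/2 = 1`, `d 1 = 1`).
`Gma.exists_rep`: `tr = a + d = t`, `det = a d - x g g = δ`.  If `r g = 1`: `r (g h) = r h`, `r (c g) = r c`, … so by (3) `A g = 2`, `D g = 2`,
`X g h = 2 A h - 2 A h = 0`, `X h g = 0`.
-/

set_option autoImplicit false

namespace Fermat.Agent.S48.P

open Matrix Pointwise

section
variable (T : Set Zbar)

def SA : Set Zbar := T + T
def SD : Set Zbar := T - T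
def SX : Set Zbar := {2} * SA T - SA T * SA T

/-- the finite set on which `φ` has to be injective at `0` -/
def liftSet : Set Zbar :=
  (T - {2}) ∪ T ∪ (T - T) ∪ ({2} * SD T - (SD T * SD T + SX T)) ∪ (SX T * SX T - SX T * SX T) ∪
    ({2} * SX T - (SA T * SX T + SX T * SD T)) ∪ ({2} * SX T - (SX T * SA T + SD T * SX T)) ∪
    (SA T * SD T - SX T - {4} * T)

theorem liftSet_finite (hT : T.Finite) : (liftSet T).Finite := by
  have hA : (SA T).Finite := hT.add hT
  have hD : (SD T).Finite := hT.sub hT
  have hX : (SX T).Finite := ((Set.finite_singleton _).mul hA).sub (hA.mul hA)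
  have h2 : ({2} : Set Zbar).Finite := Set.finite_singleton _
  have h4 : ({4} : Set Zbar).Finite := Set.finite_singleton _
  unfold liftSet
  refine Set.Finite.union (Set.Finite.union (Set.Finite.union (Set.Finite.union (Set.Finite.union
    (Set.Finite.union (Set.Finite.union ?_ ?_) ?_) ?_) ?_) ?_) ?_) ?_
  · exact hT.sub h2
  · exact hT
  · exact hT.sub hT
  · exact (h2.mul hD).sub ((hD.mul hD).add hX)
  · exact (hX.mul hX).sub (hX.mul hX)
  · exact (h2.mul hX).sub ((hA.mul hX).add (hX.mul hD))
  · exact (h2.mul hX).sub ((hX.mul hA).add (hD.mul hX))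
  · exact ((hA.mul hD).sub hX).sub (h4.mul hT)

end

theorem exists_rep_of_trace {k : Type*} [Field k] (φ : Zbar →+* k) (T : Set Zbar)
    (hinj : ∀ z ∈ liftSet T, φ z = 0 → z = 0)
    {Γ : Type*} [Group Γ] (r : Γ →* GL (Fin 2) k) (c : Γ)
    (hc : (r c : Matrix (Fin 2) (Fin 2) k) = !![1, 0; 0, -1])
    (t δ : Γ → Zbar) (ht : ∀ g, t g ∈ T) (hδ : ∀ g, δ g ∈ T)
    (htr : ∀ g, φ (t g) = (r g : Matrix (Fin 2) (Fin 2) k).trace)
    (hdet : ∀ g, φ (δ g) = (r g : Matrix (Fin 2) (Fin 2) k).det) :
    ∃ ρ : Γ →* GL (Fin 2) ℂ,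
      (∀ g, (ρ g : Matrix (Fin 2) (Fin 2) ℂ).trace = (t g : ℂ)) ∧
      (∀ g, (ρ g : Matrix (Fin 2) (Fin 2) ℂ).det = (δ g : ℂ)) ∧
      ∀ g, r g = 1 → ρ g = 1 := by
  -- entries
  set e : Γ → Fin 2 → Fin 2 → k := fun g i j => (r g : Matrix (Fin 2) (Fin 2) k) i j with he
  have hmul : ∀ g h i j, e (g * h) i j = e g i 0 * e h 0 j + e g i 1 * e h 1 j := by
    intro g h i j
    simp only [he]
    rw [map_mul, Units.val_mul, Matrix.mul_apply, Fin.sum_univ_two]
  have hce : ∀ g i j, e (c * g) i j = (if i = 0 then 1 else -1) * e g i j := by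
    intro g i j
    rw [hmul]
    simp only [he, hc]
    fin_cases i <;> simp
  have htr' : ∀ g, φ (t g) = e g 0 0 + e g 1 1 := fun g => by
    rw [htr, Matrix.trace_fin_two]
  have hdet' : ∀ g, φ (δ g) = e g 0 0 * e g 1 1 - e g 0 1 * e g 1 0 := fun g => by
    rw [hdet, Matrix.det_fin_two]
  set A : Γ → Zbar := fun g => t g + t (c * g) with hA
  set D : Γ → Zbar := fun g => t g - t (c * g) with hD
  set X : Γ → Γ → Zbar := fun g h => 2 * A (g * h) - A g * A h with hX
  have mA : ∀ g, A g ∈ SA T := fun g => Set.add_mem_add (ht _) (ht _)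
  have mD : ∀ g, D g ∈ SD T := fun g => Set.sub_mem_sub (ht _) (ht _)
  have mX : ∀ g h, X g h ∈ SX T := fun g h =>
    Set.sub_mem_sub (Set.mul_mem_mul (Set.mem_singleton _) (mA _)) (Set.mul_mem_mul (mA _) (mA _))
  have φA : ∀ g, φ (A g) = 2 * e g 0 0 := fun g => by
    simp only [hA, map_add, htr', hce]
    simp
    ring
  have φD : ∀ g, φ (D g) = 2 * e g 1 1 := fun g => by
    simp only [hD, map_sub, htr', hce]
    simp
    ring
  have φX : ∀ g h, φ (X g h) = 4 * (e g 0 1 * e h 1 0) := fun g h => by
    simp only [hX, map_sub, map_mul, φA, hmul, map_ofNat]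
    ring
  -- the identities
  have key : ∀ z, z ∈ liftSet T → φ z = 0 → z = 0 := hinj
  have i1 : t 1 = 2 := by
    have h := key (t 1 - 2) (by
      unfold liftSet
      simp only [Set.mem_union]
      exact Or.inl (Or.inl (Or.inl (Or.inl (Or.inl (Or.inl (Or.inl
        (Set.sub_mem_sub (ht _) (Set.mem_singleton _))))))))) (by
      rw [map_sub, htr, map_one, Units.val_one, Matrix.trace_one, map_ofNat]
      simp)
    exact sub_eq_zero.mp h
  have i2 : t c = 0 := by
    refine key (t c) (by
      unfold liftSet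
      simp only [Set.mem_union]
      exact Or.inl (Or.inl (Or.inl (Or.inl (Or.inl (Or.inl (Or.inr (ht _)))))))) (by
      rw [htr, hc, Matrix.trace_fin_two_of]
      ring)
  have i3 : ∀ g g', r g = r g' → t g = t g' := by
    intro g g' hgg
    have h := key (t g - t g') (by
      unfold liftSet
      simp only [Set.mem_union]
      exact Or.inl (Or.inl (Or.inl (Or.inl (Or.inl (Or.inr (Set.sub_mem_sub (ht _) (ht _)))))))) (by
      rw [map_sub, htr, htr, hgg, sub_self])
    exact sub_eq_zero.mp h
  have i4 : ∀ g h, 2 * D (g * h) = D g * D h + X h g := by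
    intro g h
    have h' := key (2 * D (g * h) - (D g * D h + X h g)) (by
      unfold liftSet
      simp only [Set.mem_union]
      exact Or.inl (Or.inl (Or.inl (Or.inl (Or.inr (Set.sub_mem_sub
        (Set.mul_mem_mul (Set.mem_singleton _) (mD _))
        (Set.add_mem_add (Set.mul_mem_mul (mD _) (mD _)) (mX _ _)))))))) (by
      simp only [map_sub, map_add, map_mul, φD, φX, hmul, map_ofNat]
      ring)
    exact sub_eq_zero.mp h'
  have i5 : ∀ g h g' h', X g h * X g' h' = X g h' * X g' h := by
    intro g h g' h'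
    have h' := key (X g h * X g' h' - X g h' * X g' h) (by
      unfold liftSet
      simp only [Set.mem_union]
      exact Or.inl (Or.inl (Or.inl (Or.inr (Set.sub_mem_sub
        (Set.mul_mem_mul (mX _ _) (mX _ _)) (Set.mul_mem_mul (mX _ _) (mX _ _))))))) (by
      simp only [map_sub, map_mul, φX]
      ring)
    exact sub_eq_zero.mp h'
  have i6 : ∀ g h k', 2 * X (g * h) k' = A g * X h k' + X g k' * D h := by
    intro g h k'
    have h' := key (2 * X (g * h) k' - (A g * X h k' + X g k' * D h)) (by
      unfold liftSet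
      simp only [Set.mem_union]
      exact Or.inl (Or.inl (Or.inr (Set.sub_mem_sub
        (Set.mul_mem_mul (Set.mem_singleton _) (mX _ _))
        (Set.add_mem_add (Set.mul_mem_mul (mA _) (mX _ _)) (Set.mul_mem_mul (mX _ _) (mD _))))))) (by
      simp only [map_sub, map_add, map_mul, φA, φD, φX, hmul, map_ofNat]
      ring)
    exact sub_eq_zero.mp h'
  have i7 : ∀ k' g h, 2 * X k' (g * h) = X k' g * A h + D g * X k' h := by
    intro k' g h
    have h' := key (2 * X k' (g * h) - (X k' g * A h + D g * X k' h)) (by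
      unfold liftSet
      simp only [Set.mem_union]
      exact Or.inl (Or.inr (Set.sub_mem_sub
        (Set.mul_mem_mul (Set.mem_singleton _) (mX _ _))
        (Set.add_mem_add (Set.mul_mem_mul (mX _ _) (mA _)) (Set.mul_mem_mul (mD _) (mX _ _)))))) (by
      simp only [map_sub, map_add, map_mul, φA, φD, φX, hmul, map_ofNat]
      ring)
    exact sub_eq_zero.mp h'
  have i8 : ∀ g, A g * D g - X g g = 4 * δ g := by
    intro g
    have h' := key (A g * D g - X g g - 4 * δ g) (by
      unfold liftSet
      simp only [Set.mem_union]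
      exact Or.inr (Set.sub_mem_sub (Set.sub_mem_sub (Set.mul_mem_mul (mA _) (mD _)) (mX _ _))
        (Set.mul_mem_mul (Set.mem_singleton _) (hδ _)))) (by
      simp only [map_sub, map_mul, φA, φD, φX, hdet', map_ofNat]
      ring)
    exact sub_eq_zero.mp h'
  -- the complex data
  have cast : ∀ {u v : Zbar}, u = v → (u : ℂ) = (v : ℂ) := fun h => congrArg _ h
  have c2 : ((2 : Zbar) : ℂ) = 2 := rfl
  have c4 : ((4 : Zbar) : ℂ) = 4 := rfl
  have hgma : Gma (fun g => (A g : ℂ) / 2) (fun g => (D g : ℂ) / 2) (fun g h => (X g h : ℂ) / 4) := by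
    refine ⟨?_, ?_, ?_, ?_, ?_, ?_, ?_⟩
    · simp only [hA, mul_one, i1, i2]
      push_cast
      rw [c2]
      norm_num
    · simp only [hD, mul_one, i1, i2]
      push_cast
      rw [c2]
      norm_num
    · intro g h
      simp only [hX]
      push_cast
      rw [c2]
      ring
    · intro g h
      have := cast (i4 g h)
      push_cast at this
      rw [c2] at this
      linear_combination (1 / 4 : ℂ) * this
    · intro g h g' h'
      have := cast (i5 g h g' h')
      push_cast at this
      linear_combination (1 / 16 : ℂ) * this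
    · intro g h k'
      have := cast (i6 g h k')
      push_cast at this
      rw [c2] at this
      linear_combination (1 / 8 : ℂ) * this
    · intro k' g h
      have := cast (i7 k' g h)
      push_cast at this
      rw [c2] at this
      linear_combination (1 / 8 : ℂ) * this
  obtain ⟨ρ, h1, h2, h3⟩ := hgma.exists_rep
  refine ⟨ρ, fun g => ?_, fun g => ?_, fun g hg => ?_⟩
  · rw [h1]
    simp only [hA, hD]
    push_cast
    ring
  · rw [h2]
    have := cast (i8 g)
    push_cast at this
    rw [c4] at this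
    linear_combination (1 / 4 : ℂ) * this
  · have e1 : t g = 2 := by rw [i3 g 1 (by rw [hg, map_one]), i1]
    have e2 : t (c * g) = 0 := by rw [i3 (c * g) c (by rw [map_mul, hg, mul_one]), i2]
    have e3 : ∀ h, A (g * h) = A h := by
      intro h
      simp only [hA]
      rw [i3 (g * h) h (by rw [map_mul, hg, one_mul]),
        i3 (c * (g * h)) (c * h) (by rw [map_mul, map_mul, map_mul, hg, one_mul])]
    have e4 : ∀ h, A (h * g) = A h := by
      intro h
      simp only [hA]
      rw [i3 (h * g) h (by rw [map_mul, hg, mul_one]),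
        i3 (c * (h * g)) (c * h) (by rw [map_mul, map_mul, map_mul, hg, mul_one])]
    have e5 : A g = 2 := by simp only [hA, e1, e2, add_zero]
    have e6 : D g = 2 := by simp only [hD, e1, e2, sub_zero]
    refine h3 g ?_ ?_ ?_ ?_
    · simp only [e5]
      push_cast
      rw [c2]
      norm_num
    · simp only [e6]
      push_cast
      rw [c2]
      norm_num
    · intro h
      have : X g h = 0 := by
        simp only [hX]
        rw [e3, e5]
        ring
      simp only [this]
      simp
    · intro h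
      have : X h g = 0 := by
        simp only [hX]
        rw [e4, e5]
        ring
      simp only [this]
      simp

end Fermat.Agent.S48.P
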