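import Fermat.Agent.S48.Defs

/-!
# S48 / P-TEICH : lifting traces and determinants of matrices whose eigenvalues are `e`-th roots of unity
[key S48/P-TEICH, ~300 lines, MATHLIB ONLY]

`muSet e = {z ∈ Zbar | z^e = 1}`: finite, exactly `e` elements (`Complex` has a primitive `e`-th root `ζ`, `Complex.isPrimitiveRoot_exp`; its powers are integral).
`φ` injective on `muSet e` (hypothesis `hinj` on differences), with values in `{x ∈ k | x^e = 1}`, which has at most `e` elements
(`Polynomial.card_nthRoots` / `card_rootsOfUnity`): so `φ : muSet e → {x | x^e = 1}` is onto (`exists_mu`).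
`exists_trace_lift`: `k` algebraically closed: `α` a root of `X² - tr X + det` (`IsAlgClosed.exists_root`), `β = tr - α` is another one (`β² - tr β + det = α² - tr α + det`).
`α^e = β^e = 1`; `ζ, ζ'` with `φ ζ = α`, `φ ζ' = β`; `t = ζ + ζ'`, `δ = ζ ζ'`; `α β = det`.
-/

set_option autoImplicit false

namespace Fermat.Agent.S48.P

open Matrix Pointwise Polynomial

def muSet (e : ℕ) : Set Zbar := {z | z ^ e = 1}

/-- sums of two `e`-th roots of unity, and `e`-th roots of unity -/
def TSet (e : ℕ) : Set Zbar := (muSet e + muSet e) ∪ muSet e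

theorem muSet_finite {e : ℕ} (he : 0 < e) : (muSet e).Finite := by
  have h : muSet e ⊆ ((nthRootsFinset e (1 : Zbar) : Finset Zbar) : Set Zbar) := by
    intro z hz
    rw [Finset.mem_coe, mem_nthRootsFinset he]
    exact hz
  exact (Finset.finite_toSet _).subset h

theorem TSet_finite {e : ℕ} (he : 0 < e) : (TSet e).Finite :=
  ((muSet_finite he).add (muSet_finite he)).union (muSet_finite he)

theorem exists_mu {k : Type*} [Field k] (φ : Zbar →+* k) {e : ℕ} (he : 0 < e)
    (hinj : ∀ z ∈ muSet e - muSet e, φ z = 0 → z = 0) (α : k) (hα : α ^ e = 1) :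
    ∃ ζ ∈ muSet e, φ ζ = α := by
  classical
  -- a primitive root of unity in `Zbar`
  have hζ₀ : IsPrimitiveRoot (Complex.exp (2 * Real.pi * Complex.I / e)) e :=
    Complex.isPrimitiveRoot_exp e he.ne'
  set ζ₀ : Zbar := ⟨Complex.exp (2 * Real.pi * Complex.I / e), hζ₀.isIntegral he⟩ with hζ₀def
  have hprim : IsPrimitiveRoot ζ₀ e := by
    refine IsPrimitiveRoot.of_map_of_injective (f := Zbar.val) (hf := Subtype.val_injective) ?_
    exact hζ₀
  -- the image is a primitive root
  have hmem : ∀ i : ℕ, ζ₀ ^ i ∈ muSet e := fun i => by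
    show (ζ₀ ^ i) ^ e = 1
    rw [← pow_mul, mul_comm, pow_mul, hprim.pow_eq_one, one_pow]
  have hprimk : IsPrimitiveRoot (φ ζ₀) e := by
    refine IsPrimitiveRoot.mk_of_lt _ he (by rw [← map_pow, hprim.pow_eq_one, map_one]) ?_
    intro l hl0 hle hl
    have h1 : ζ₀ ^ l - 1 = 0 := by
      refine hinj _ (Set.sub_mem_sub (hmem l) (by simpa using hmem 0)) ?_
      rw [map_sub, map_pow, hl, map_one, sub_self]
    exact hprim.pow_ne_one_of_pos_of_lt hl0.ne' hle (sub_eq_zero.mp h1)
  have : NeZero e := ⟨he.ne'⟩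
  obtain ⟨i, _, hi⟩ := hprimk.eq_pow_of_pow_eq_one hα
  exact ⟨ζ₀ ^ i, hmem i, by rw [map_pow, hi]⟩

theorem exists_trace_lift {k : Type*} [Field k] [IsAlgClosed k] (φ : Zbar →+* k) {e : ℕ} (he : 0 < e)
    (hinj : ∀ z ∈ muSet e - muSet e, φ z = 0 → z = 0)
    (m : Matrix (Fin 2) (Fin 2) k) (hm : ∀ α : k, α * α - m.trace * α + m.det = 0 → α ^ e = 1) :
    ∃ t ∈ TSet e, ∃ δ ∈ TSet e, φ t = m.trace ∧ φ δ = m.det := by
  obtain ⟨α, hα⟩ : ∃ α : k, α * α - m.trace * α + m.det = 0 := by
    have hdeg : (X ^ 2 - C m.trace * X + C m.det : k[X]).degree ≠ 0 := by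
      have : (X ^ 2 - C m.trace * X + C m.det : k[X]) = C 1 * X ^ 2 + C (- m.trace) * X + C m.det := by
        simp; ring
      rw [this, degree_quadratic one_ne_zero]
      decide
    obtain ⟨α, hα⟩ := IsAlgClosed.exists_root _ hdeg
    refine ⟨α, ?_⟩
    simp only [IsRoot.def, eval_add, eval_sub, eval_pow, eval_X, eval_mul, eval_C] at hα
    linear_combination hα
  set β := m.trace - α with hβ
  have hβ' : β * β - m.trace * β + m.det = 0 := by rw [hβ]; linear_combination hα
  obtain ⟨ζ, hζ, hζα⟩ := exists_mu φ he hinj α (hm α hα)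
  obtain ⟨ζ', hζ', hζβ⟩ := exists_mu φ he hinj β (hm β hβ')
  refine ⟨ζ + ζ', Or.inl (Set.add_mem_add hζ hζ'), ζ * ζ', Or.inr ?_, ?_, ?_⟩
  · show (ζ * ζ') ^ e = 1
    rw [mul_pow, hζ, hζ', one_mul]
  · rw [map_add, hζα, hζβ, hβ]; ring
  · rw [map_mul, hζα, hζβ, hβ]; linear_combination -hα

end Fermat.Agent.S48.P
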