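import Fermat.Agent.S48.P.Inj
import Fermat.Agent.S48.P.LiftId
import Fermat.Agent.S48.P.Teich
import Fermat.Agent.S48.P.Exp

/-!
# S48 / P-LIFT : the lift `GL₂(k) ⇝ GL₂(ℂ)` for representations of bounded exponent with an odd involution
[key S48/P-LIFT, ~250 lines, from the stubs of `Inj`, `LiftId`, `Teich`]

`exists_diag`: `m ∈ GL₂(k)`, `m * m = 1`, `det m = -1`, `2 ≠ 0`  ⇒  `∃ Q, Q * m * Q⁻¹ = diag(1,-1)`.
 [Cayley–Hamilton `m² - tr m • m + det m = 0` gives `tr m • m = 0`, so `tr m = 0`: `m = [[a,b],[c,-a]]`, `a² + b c = 1`.  `m ≠ ± 1`; pick `u` with `v₁ = (m + 1) u ≠ 0`,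
 `u'` with `v₂ = (m - 1) u' ≠ 0`: `m v₁ = v₁`, `m v₂ = - v₂`, independent because `2 ≠ 0`.  `Q⁻¹ = (v₁ | v₂)`.   Or explicit formulas by cases `b ≠ 0`, `c ≠ 0`, `b = c = 0`.]
`exists_lift`: `ℓ₀ = max 2 (bound of exists_bound_inj for liftSet (TSet e) ∪ (muSet e - muSet e))`.  `r' = Q r Q⁻¹` (`(MulAut.conj Q).toMonoidHom.comp r`), same traces/dets, `r' g = 1 ↔ r g = 1`.
 `t, δ` by choice from `exists_trace_lift`.  `exists_rep_of_trace`.
-/

set_option autoImplicit false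

namespace Fermat.Agent.S48.P

open Matrix Pointwise

theorem exists_diag {k : Type*} [Field k] (h2 : (2 : k) ≠ 0) (m : GL (Fin 2) k) (hm : m * m = 1)
    (hdet : (m : Matrix (Fin 2) (Fin 2) k).det = -1) :
    ∃ Q : GL (Fin 2) k, ((Q * m * Q⁻¹ : GL (Fin 2) k) : Matrix (Fin 2) (Fin 2) k) = !![1, 0; 0, -1] := by
  have htr : (m : Matrix (Fin 2) (Fin 2) k).trace = 0 := by
    have h1 : (m : Matrix (Fin 2) (Fin 2) k) * (m : Matrix (Fin 2) (Fin 2) k) = 1 := by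
      rw [← Units.val_mul, hm, Units.val_one]
    have e00 := congrFun (congrFun h1 0) 0
    have e11 := congrFun (congrFun h1 1) 1
    rw [Matrix.mul_apply, Fin.sum_univ_two] at e00 e11
    simp only [Matrix.one_apply_eq] at e00 e11
    rw [Matrix.det_fin_two] at hdet
    rw [Matrix.trace_fin_two]
    have h3 : ((m : Matrix (Fin 2) (Fin 2) k) 0 0 + (m : Matrix (Fin 2) (Fin 2) k) 1 1) ^ 2 = 0 := by
      linear_combination e00 + e11 + 2 * hdet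
    exact pow_eq_zero_iff (two_ne_zero) |>.mp h3
  obtain ⟨Q, hQ⟩ := exp_diagonalise m 1 (-1) (by rw [htr]; ring) (by rw [hdet]; ring) (by
    intro h
    apply h2
    linear_combination h)
  exact ⟨Q⁻¹, by rw [inv_inv]; exact hQ⟩

theorem exists_lift (e : ℕ) (he : 0 < e) :
    ∃ ℓ₀ : ℕ, ∀ ℓ : ℕ, ℓ₀ < ℓ → ∀ (k : Type) [Field k] [IsAlgClosed k] [CharP k ℓ] (φ : Zbar →+* k)
      {Γ : Type} [Group Γ] (r : Γ →* GL (Fin 2) k) (c : Γ), c * c = 1 →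
      (r c : Matrix (Fin 2) (Fin 2) k).det = -1 →
      (∀ (g : Γ) (α : k), α * α - (r g : Matrix (Fin 2) (Fin 2) k).trace * α +
          (r g : Matrix (Fin 2) (Fin 2) k).det = 0 → α ^ e = 1) →
      ∃ ρ : Γ →* GL (Fin 2) ℂ, (∀ g, r g = 1 → ρ g = 1) ∧
        ∀ g, ∃ t ∈ TSet e, ∃ δ ∈ TSet e,
          (ρ g : Matrix (Fin 2) (Fin 2) ℂ).trace = (t : ℂ) ∧ (ρ g : Matrix (Fin 2) (Fin 2) ℂ).det = (δ : ℂ) ∧
          φ t = (r g : Matrix (Fin 2) (Fin 2) k).trace ∧ φ δ = (r g : Matrix (Fin 2) (Fin 2) k).det := by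
  obtain ⟨ℓ₀, hℓ₀⟩ := exists_bound_inj (liftSet (TSet e) ∪ (muSet e - muSet e))
    ((liftSet_finite _ (TSet_finite he)).union ((muSet_finite he).sub (muSet_finite he)))
  refine ⟨max 2 ℓ₀, fun ℓ hℓ k _ _ _ φ Γ _ r c hc hdet hr => ?_⟩
  have hinj := hℓ₀ ℓ (lt_of_le_of_lt (le_max_right _ _) hℓ) k φ
  have h2 : (2 : k) ≠ 0 := by
    intro h
    have h3 : ((2 : ℕ) : k) = 0 := by exact_mod_cast h
    rw [CharP.cast_eq_zero_iff k ℓ] at h3
    have := Nat.le_of_dvd (by norm_num) h3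
    have := lt_of_le_of_lt (le_max_left 2 ℓ₀) hℓ
    omega
  obtain ⟨Q, hQ⟩ := exists_diag h2 (r c) (by rw [← map_mul, hc, map_one]) hdet
  set r' : Γ →* GL (Fin 2) k := (MulAut.conj Q).toMonoidHom.comp r with hr'
  have hr'a : ∀ x, r' x = Q * r x * Q⁻¹ := fun x => by simp [hr']
  have htr : ∀ x, (r' x : Matrix (Fin 2) (Fin 2) k).trace = (r x : Matrix (Fin 2) (Fin 2) k).trace := by
    intro x
    rw [hr'a, Units.val_mul, Units.val_mul]
    exact Matrix.trace_units_conj Q _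
  have hdt : ∀ x, (r' x : Matrix (Fin 2) (Fin 2) k).det = (r x : Matrix (Fin 2) (Fin 2) k).det := by
    intro x
    rw [hr'a, Units.val_mul, Units.val_mul]
    exact Matrix.det_units_conj Q _
  have hex : ∀ g : Γ, ∃ t ∈ TSet e, ∃ δ ∈ TSet e, φ t = (r g : Matrix (Fin 2) (Fin 2) k).trace ∧
      φ δ = (r g : Matrix (Fin 2) (Fin 2) k).det := fun g =>
    exists_trace_lift φ he (fun z hz => hinj z (Or.inr hz)) _ (hr g)
  choose t ht δ hδ hφt hφδ using hex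
  obtain ⟨ρ, h1, h3, h4⟩ := exists_rep_of_trace φ (TSet e) (fun z hz => hinj z (Or.inl hz)) r' c
    (by rw [hr'a]; exact hQ) t δ ht hδ (fun g => by rw [htr, hφt]) (fun g => by rw [hdt, hφδ])
  refine ⟨ρ, fun g hg => h4 g (by rw [hr'a, hg]; simp), fun g =>
    ⟨t g, ht g, δ g, hδ g, h1 g, h3 g, hφt g, hφδ g⟩⟩

end Fermat.Agent.S48.P
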