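import Mathlib

/-!
# S48 / P-GMA : from "generalised matrix algebra" data to a representation   [key S48/P-GMA, ~200 lines, MATHLIB ONLY]

`a, d : Γ → K`, `x : Γ → Γ → K` (think of `ρ g = [[a g, b g],[c g, d g]]`, `x g h = b g * c h`).
`x 1 h = 0 = x h 1` follow from `a_mul`, `a_one`.
* If `x g₀ h₀ ≠ 0` for some `g₀ h₀`:  `ρ g := !![a g, x g h₀ / x g₀ h₀; x g₀ g, d g]`.
  `ρ g * ρ h`:  (0,0) `a g a h + x g h₀ x g₀ h / x₀₀ = a g a h + x g h` (`x_swap`) `= a (g h)`;   (0,1) `(a g x h h₀ + x g h₀ d h)/x₀₀ = x (g h) h₀ / x₀₀`;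
  (1,0) `x g₀ g a h + d g x g₀ h = x g₀ (g h)`;   (1,1) `x g₀ g x h h₀ / x₀₀ + d g d h = x h g + d g d h = d (g h)`.
  `det ρ g = a g d g - x g h₀ x g₀ g / x₀₀ = a g d g - x g g`.
* If `x = 0`:  `ρ g := !![a g, 0; 0, d g]`.
Monoid hom into `Matrix`, then `MonoidHom.toHomUnits`.
-/

set_option autoImplicit false

namespace Fermat.Agent.S48.P

open Matrix

structure Gma {Γ K : Type*} [Group Γ] [Field K] (a d : Γ → K) (x : Γ → Γ → K) : Prop where
  a_one : a 1 = 1
  d_one : d 1 = 1
  a_mul : ∀ g h, a (g * h) = a g * a h + x g h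
  d_mul : ∀ g h, d (g * h) = d g * d h + x h g
  x_swap : ∀ g h g' h', x g h * x g' h' = x g h' * x g' h
  x_mul_left : ∀ g h k, x (g * h) k = a g * x h k + x g k * d h
  x_mul_right : ∀ k g h, x k (g * h) = x k g * a h + d g * x k h

theorem Gma.x_one_left {Γ K : Type*} [Group Γ] [Field K] {a d : Γ → K} {x : Γ → Γ → K} (h : Gma a d x)
    (g : Γ) : x 1 g = 0 := by
  have := h.a_mul 1 g
  rw [one_mul, h.a_one, one_mul] at this
  linear_combination -this

theorem Gma.x_one_right {Γ K : Type*} [Group Γ] [Field K] {a d : Γ → K} {x : Γ → Γ → K} (h : Gma a d x)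
    (g : Γ) : x g 1 = 0 := by
  have := h.a_mul g 1
  rw [mul_one, h.a_one, mul_one] at this
  linear_combination -this

theorem Gma.exists_rep {Γ K : Type*} [Group Γ] [Field K] {a d : Γ → K} {x : Γ → Γ → K} (h : Gma a d x) :
    ∃ ρ : Γ →* GL (Fin 2) K,
      (∀ g, (ρ g : Matrix (Fin 2) (Fin 2) K).trace = a g + d g) ∧
      (∀ g, (ρ g : Matrix (Fin 2) (Fin 2) K).det = a g * d g - x g g) ∧
      ∀ g, a g = 1 → d g = 1 → (∀ h, x g h = 0) → (∀ h, x h g = 0) → ρ g = 1 := by
  by_cases hx : ∃ g₀ h₀, x g₀ h₀ ≠ 0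
  · obtain ⟨g₀, h₀, h0⟩ := hx
    let f : Γ →* Matrix (Fin 2) (Fin 2) K :=
      { toFun := fun g => !![a g, x g h₀ / x g₀ h₀; x g₀ g, d g]
        map_one' := by
          rw [h.a_one, h.d_one, h.x_one_left, h.x_one_right, zero_div, Matrix.one_fin_two]
        map_mul' := by
          intro g g'
          rw [Matrix.mul_fin_two]
          have e1 : a (g * g') = a g * a g' + x g h₀ / x g₀ h₀ * x g₀ g' := by
            rw [h.a_mul]
            have := h.x_swap g h₀ g₀ g'
            field_simp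
            linear_combination -this
          have e2 : x (g * g') h₀ / x g₀ h₀ = a g * (x g' h₀ / x g₀ h₀) + x g h₀ / x g₀ h₀ * d g' := by
            rw [h.x_mul_left]
            field_simp
          have e3 : x g₀ (g * g') = x g₀ g * a g' + d g * x g₀ g' := h.x_mul_right _ _ _
          have e4 : d (g * g') = x g₀ g * (x g' h₀ / x g₀ h₀) + d g * d g' := by
            rw [h.d_mul]
            have := h.x_swap g₀ g g' h₀
            field_simp
            linear_combination -this
          rw [e1, e2, e3, e4] }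
    have hf : ∀ g, f g = !![a g, x g h₀ / x g₀ h₀; x g₀ g, d g] := fun g => rfl
    refine ⟨f.toHomUnits, fun g => ?_, fun g => ?_, fun g h1 h2 h3 h4 => ?_⟩
    · rw [MonoidHom.coe_toHomUnits, hf, Matrix.trace_fin_two_of]
    · rw [MonoidHom.coe_toHomUnits, hf, Matrix.det_fin_two_of]
      have := h.x_swap g h₀ g₀ g
      field_simp
      linear_combination -this
    · apply Units.ext
      rw [MonoidHom.coe_toHomUnits, hf, h1, h2, h3, h4, zero_div, Units.val_one, Matrix.one_fin_two]
  · push Not at hx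
    let f : Γ →* Matrix (Fin 2) (Fin 2) K :=
      { toFun := fun g => !![a g, 0; 0, d g]
        map_one' := by rw [h.a_one, h.d_one, Matrix.one_fin_two]
        map_mul' := by
          intro g g'
          rw [Matrix.mul_fin_two, h.a_mul, h.d_mul, hx, hx]
          simp }
    have hf : ∀ g, f g = !![a g, 0; 0, d g] := fun g => rfl
    refine ⟨f.toHomUnits, fun g => ?_, fun g => ?_, fun g h1 h2 _ _ => ?_⟩
    · rw [MonoidHom.coe_toHomUnits, hf, Matrix.trace_fin_two_of]
    · rw [MonoidHom.coe_toHomUnits, hf, Matrix.det_fin_two_of, hx]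
      ring
    · apply Units.ext
      rw [MonoidHom.coe_toHomUnits, hf, h1, h2, Units.val_one, Matrix.one_fin_two]

end Fermat.Agent.S48.P
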