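import Fermat.Agent.S48.Defs

/-!
# S48 / P-INJ : reduction mod `ℓ` is injective on a finite set for `ℓ` large   [key S48/P-INJ, ~150 lines, MATHLIB ONLY]

`exists_int_multiple`: `z ≠ 0` algebraic integer; `p = minpoly ℤ z` (monic, `p.coeff 0 ≠ 0` since `z ≠ 0` and `p` irreducible; or take any monic
integer polynomial killing `z` of minimal degree / divide by the largest power of `X`).  `p(z) = 0` gives `p.coeff 0 = - z * (…)` with `… ∈ Zbar`.
`exists_bound_inj`: `ℓ₀ = ∑` (or max) of the `|c_z|`, `z ∈ F \ {0}`.  If `φ z = 0` and `z ≠ 0`: `φ (c_z) = 0`, i.e. `(c_z : k) = 0`, so `ℓ ∣ c_z`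
(`CharP.intCast_eq_zero_iff`), `ℓ ≤ |c_z| ≤ ℓ₀`.
-/

set_option autoImplicit false

namespace Fermat.Agent.S48.P

open Polynomial

theorem exists_int_multiple (z : Zbar) (hz : z ≠ 0) : ∃ (c : ℤ) (w : Zbar), c ≠ 0 ∧ (c : Zbar) = z * w := by
  have hint : IsIntegral ℤ z := by
    have h1 : IsIntegral ℤ (z : ℂ) := z.2
    exact (isIntegral_algebraMap_iff (A := Zbar) (B := ℂ) Subtype.val_injective).mp h1
  obtain ⟨p₀, hp₀m, hp₀⟩ := hint
  have hp₀' : aeval z p₀ = 0 := by rw [aeval_def]; exact hp₀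
  obtain ⟨p, hpq, hnd⟩ := exists_eq_pow_rootMultiplicity_mul_and_not_dvd p₀ hp₀m.ne_zero 0
  rw [C_0, sub_zero] at hpq hnd
  have h0 : p.coeff 0 ≠ 0 := fun h => hnd (X_dvd_iff.mpr h)
  have h1 : aeval z p = 0 := by
    rw [hpq, map_mul, map_pow, aeval_X] at hp₀'
    exact (mul_eq_zero.mp hp₀').resolve_left (pow_ne_zero _ hz)
  obtain ⟨q, hq⟩ : X ∣ p - C (p.coeff 0) := by
    rw [X_dvd_iff]; simp
  have h2 : p = X * q + C (p.coeff 0) := by rw [← hq]; ring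
  rw [h2] at h1
  simp only [map_add, map_mul, aeval_X, aeval_C] at h1
  refine ⟨p.coeff 0, - aeval z q, h0, ?_⟩
  have h3 : algebraMap ℤ Zbar (p.coeff 0) = ((p.coeff 0 : ℤ) : Zbar) := rfl
  rw [h3] at h1
  linear_combination h1

theorem exists_bound_inj (F : Set Zbar) (hF : F.Finite) :
    ∃ ℓ₀ : ℕ, ∀ ℓ : ℕ, ℓ₀ < ℓ → ∀ (k : Type) [Field k] [CharP k ℓ] (φ : Zbar →+* k),
      ∀ z ∈ F, φ z = 0 → z = 0 := by
  classical
  choose! c w hc hcw using exists_int_multiple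
  refine ⟨∑ z ∈ hF.toFinset, (c z).natAbs, fun ℓ hℓ k _ _ φ z hz hφ => ?_⟩
  by_contra hz0
  have h1 : ((c z : ℤ) : k) = 0 := by
    have := congrArg φ (hcw z hz0)
    rw [map_mul, hφ, zero_mul, map_intCast] at this
    exact this
  rw [CharP.intCast_eq_zero_iff k ℓ] at h1
  have h2 : ℓ ≤ (c z).natAbs := by
    have h3 : ℓ ∣ (c z).natAbs := Int.natCast_dvd.mp h1
    exact Nat.le_of_dvd (Int.natAbs_pos.mpr (hc z hz0)) h3
  have h4 : (c z).natAbs ≤ ∑ z ∈ hF.toFinset, (c z).natAbs :=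
    Finset.single_le_sum (f := fun z => (c z).natAbs) (fun _ _ => Nat.zero_le _)
      (hF.mem_toFinset.mpr hz)
  omega

end Fermat.Agent.S48.P
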